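/-
Programme AV (S26/S27), brick F3 (helper53): `genusFF = dim B01/(B0+B1)`, part 1.

Strong approximation ("partial fractions") in a Dedekind domain `R` with fraction field `F`:
for a finite set `S` of height-one primes and prescribed `a w ∈ F`, there is `g ∈ F` with
`g - a w` integral at every `w ∈ S` and `g` integral at every `w ∉ S`.
-/
import Mathlib

set_option autoImplicit false

open IsDedekindDomain WithZero

namespace Fermat.Agent.AV.F3_53.Approx

variable {R F : Type*} [CommRing R] [IsDedekindDomain R] [Field F] [Algebra R F]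
  [IsFractionRing R F]

theorem valuation_algebraMap_eq_exp (w : HeightOneSpectrum R) {s : R} (hs : s ≠ 0) :
    w.valuation F (algebraMap R F s) =
      exp (-((Associates.mk w.asIdeal).count (Associates.mk (Ideal.span {s} : Ideal R)).factors : ℤ)) := by
  rw [HeightOneSpectrum.valuation_of_algebraMap, HeightOneSpectrum.intValuation_if_neg _ hs]

theorem valuation_algebraMap_le_exp_of_mem (w : HeightOneSpectrum R) {r : R} {n : ℕ}
    (hr : r ∈ w.asIdeal ^ n) : w.valuation F (algebraMap R F r) ≤ exp (-(n : ℤ)) := by
  rw [HeightOneSpectrum.valuation_of_algebraMap]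
  exact (w.intValuation_le_pow_iff_mem r n).mpr hr

theorem valuation_algebraMap_eq_one_of_notMem (w : HeightOneSpectrum R) {s : R}
    (hs : s ∉ w.asIdeal) : w.valuation F (algebraMap R F s) = 1 := by
  rw [HeightOneSpectrum.valuation_of_algebraMap]
  apply le_antisymm (w.intValuation_le_one s)
  rw [← not_lt, HeightOneSpectrum.intValuation_lt_one_iff_mem]
  exact hs

/-- **Strong approximation in a Dedekind domain.** -/
theorem exists_approx (S : Finset (HeightOneSpectrum R)) (a : HeightOneSpectrum R → F) :
    ∃ g : F, (∀ w ∈ S, w.valuation F (g - a w) ≤ 1) ∧ ∀ w ∉ S, w.valuation F g ≤ 1 := by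
  classical
  have hden : ∀ w : HeightOneSpectrum R, ∃ n d : R, d ≠ 0 ∧
      a w = algebraMap R F n / algebraMap R F d := by
    intro w
    obtain ⟨n, d, hd, h⟩ := IsFractionRing.div_surjective (A := R) (a w)
    exact ⟨n, d, nonZeroDivisors.ne_zero hd, h.symm⟩
  choose n d hd0 had using hden
  set s : R := ∏ w ∈ S, d w with hs
  have hs0 : s ≠ 0 := Finset.prod_ne_zero_iff.mpr fun w _ => hd0 w
  have hsF : algebraMap R F s ≠ 0 :=
    (map_ne_zero_iff _ (IsFractionRing.injective R F)).mpr hs0
  let m : HeightOneSpectrum R → R := fun w => n w * ∏ u ∈ S.erase w, d u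
  have ham : ∀ w ∈ S, a w = algebraMap R F (m w) / algebraMap R F s := by
    intro w hw
    have hdF : algebraMap R F (d w) ≠ 0 :=
      (map_ne_zero_iff _ (IsFractionRing.injective R F)).mpr (hd0 w)
    rw [had w, hs, ← Finset.mul_prod_erase S d hw]
    simp only [m, map_mul]
    have hPF : algebraMap R F (∏ u ∈ S.erase w, d u) ≠ 0 :=
      (map_ne_zero_iff _ (IsFractionRing.injective R F)).mpr
        (Finset.prod_ne_zero_iff.mpr fun u _ => hd0 u)
    rw [div_eq_div_iff hdF (mul_ne_zero hdF hPF)]
    ring
  have hI : (Ideal.span {s} : Ideal R) ≠ 0 := by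
    rw [Ne, Ideal.zero_eq_bot, Ideal.span_singleton_eq_bot]
    exact hs0
  have hfin : {w : HeightOneSpectrum R | w.asIdeal ∣ Ideal.span {s}}.Finite :=
    Ideal.finite_factors hI
  set T : Finset (HeightOneSpectrum R) := S ∪ hfin.toFinset with hT
  let e : HeightOneSpectrum R → ℕ := fun w =>
    (Associates.mk w.asIdeal).count (Associates.mk (Ideal.span {s} : Ideal R)).factors
  obtain ⟨b, hb⟩ := IsDedekindDomain.exists_forall_sub_mem_ideal (s := T)
    (fun w : HeightOneSpectrum R => w.asIdeal) e (fun w _ => w.prime)
    (fun w _ w' _ h h' => h (HeightOneSpectrum.ext h'))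
    (fun w => if (w : HeightOneSpectrum R) ∈ S then m w else 0)
  have hvs : ∀ w : HeightOneSpectrum R,
      w.valuation F (algebraMap R F s) = exp (-(e w : ℤ)) := fun w =>
    valuation_algebraMap_eq_exp w hs0
  refine ⟨algebraMap R F b / algebraMap R F s, ?_, ?_⟩
  · intro w hw
    have hwT : w ∈ T := Finset.mem_union_left _ hw
    have h1 := hb w hwT
    simp only [hw, if_true] at h1
    rw [ham w hw, ← sub_div, ← map_sub, map_div₀, hvs w]
    rw [div_le_one₀ (by simp)]
    exact valuation_algebraMap_le_exp_of_mem w h1
  · intro w hw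
    rw [map_div₀]
    by_cases hwT : w ∈ T
    · have h1 := hb w hwT
      simp only [hw, if_false, sub_zero] at h1
      rw [hvs w, div_le_one₀ (by simp)]
      exact valuation_algebraMap_le_exp_of_mem w h1
    · have hns : s ∉ w.asIdeal := by
        intro hmem
        apply hwT
        rw [hT, Finset.mem_union]
        right
        rw [Set.Finite.mem_toFinset, Set.mem_ofPred_eq, Ideal.dvd_span_singleton]
        exact hmem
      rw [valuation_algebraMap_eq_one_of_notMem w hns, div_one,
        HeightOneSpectrum.valuation_of_algebraMap]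
      exact w.intValuation_le_one b

end Fermat.Agent.AV.F3_53.Approx
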