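/-
Programme AV (S26/S27), brick F3 (helper53): `genusFF = dim B01/(B0+B1)`, part 2.

`F / K` a function field with a transcendental generator `x` (`IsGen K x`).
* `regOn K U` : the `K`-subalgebra of `F` of functions regular at all places of a set `U`;
* `chartSet K x` : the places at which `x` is regular (the "affine chart" of `x`);
* `mem_regOn_chartSet_iff` : `regOn K (chartSet K x)` is the integral closure of `K[x]` in `F`;
* `exists_approx_chart` : strong approximation on the chart of `x`.
-/
import Mathlib
import Fermat.Agent.AV.F3_53.Approx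
import Fermat.Agent.X0.FFSum
import Fermat.Agent.X0.FFDedekind

set_option autoImplicit false

open AlgebraicCurve IsDedekindDomain

namespace Fermat.Agent.AV.F3_53.Charts

open Fermat.Agent.X0.FF Fermat.Agent.X0.FFDedekind

variable {K F : Type*} [Field K] [Field F] [Algebra K F]

/-- The functions regular at every place of `U`. -/
def regOn (K : Type*) {F : Type*} [Field K] [Field F] [Algebra K F] (U : Set (Place K F)) :
    Subalgebra K F where
  carrier := {f | ∀ v ∈ U, f ∈ v.toValuationSubring}
  mul_mem' := fun ha hb v hv => mul_mem (ha v hv) (hb v hv)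
  add_mem' := fun ha hb v hv => add_mem (ha v hv) (hb v hv)
  algebraMap_mem' := fun c v _ => v.algebraMap_mem' c

theorem mem_regOn {U : Set (Place K F)} {f : F} :
    f ∈ regOn K U ↔ ∀ v ∈ U, f ∈ v.toValuationSubring := Iff.rfl

theorem regOn_anti {U V : Set (Place K F)} (h : U ⊆ V) : regOn K V ≤ regOn K U :=
  fun _ hf v hv => hf v (h hv)

/-- The places at which `x` is regular. -/
def chartSet (K : Type*) {F : Type*} [Field K] [Field F] [Algebra K F] (x : F) :
    Set (Place K F) := {v | x ∈ v.toValuationSubring}

theorem mem_chartSet {x : F} {v : Place K F} :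
    v ∈ chartSet K x ↔ x ∈ v.toValuationSubring := Iff.rfl

theorem self_mem_regOn_chartSet (x : F) : x ∈ regOn K (chartSet K x) := fun _ hv => hv

section Centre

variable {B : Type*} [CommRing B] [IsDedekindDomain B] [Algebra B F] [IsFractionRing B F]
  [Algebra K B] [IsScalarTower K B F]

/-- Membership in the valuation ring of a place containing `B`, in terms of the valuation of its
centre. -/
theorem mem_iff_valuation_centreSpec_le (v : Place K F)
    (hB : ∀ b : B, algebraMap B F b ∈ v.toValuationSubring) (f : F) :
    f ∈ v.toValuationSubring ↔ (centreSpec v hB).valuation F f ≤ 1 := by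
  have h := ofHeightOneSpectrum_centreSpec v hB
  have h2 : f ∈ (Place.ofHeightOneSpectrum (K := K) (F := F)
      (centreSpec v hB)).toValuationSubring ↔ (centreSpec v hB).valuation F f ≤ 1 := Iff.rfl
  rw [h] at h2
  exact h2

end Centre

variable [CharZero K] {x : F}

/-- `regOn K (chartSet K x)` is the integral closure of `K[x]` in `F`. -/
theorem mem_regOn_chartSet_iff (hx : IsGen K x) (f : F) :
    f ∈ regOn K (chartSet K x) ↔ IsIntegral (Algebra.adjoin K {x}) f := by
  have := isDedekindDomain_intRing hx
  have := isFractionRing_intRing hx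
  constructor
  · intro hf
    have h1 : f ∈ (algebraMap (intRing K x) F).range := by
      apply HeightOneSpectrum.mem_integers_of_valuation_le_one F f
      intro w
      exact hf (Place.ofHeightOneSpectrum (K := K) (F := F) w)
        (algebraMap_mem_ofHeightOneSpectrum w
          ⟨x, isIntegral_algebraMap (x := genA K x)⟩)
    obtain ⟨b, rfl⟩ := h1
    exact b.2
  · intro hf v hv
    exact intRing_le_of_mem v hv ⟨f, hf⟩

/-- **Strong approximation on the chart of `x`.** -/
theorem exists_approx_chart (hx : IsGen K x) (S : Set (Place K F)) (hS : S.Finite)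
    (a : Place K F → F) :
    ∃ g : F, (∀ v ∈ S, x ∈ v.toValuationSubring → g - a v ∈ v.toValuationSubring) ∧
      ∀ v ∉ S, x ∈ v.toValuationSubring → g ∈ v.toValuationSubring := by
  classical
  have := isDedekindDomain_intRing hx
  have := isFractionRing_intRing hx
  let Φ : HeightOneSpectrum (intRing K x) → Place K F :=
    fun w => Place.ofHeightOneSpectrum (K := K) (F := F) w
  have hΦ : Function.Injective Φ := ofHeightOneSpectrum_injective
  have hfin : (Φ ⁻¹' S).Finite := hS.preimage hΦ.injOn
  obtain ⟨g, hg1, hg2⟩ := Approx.exists_approx (F := F) hfin.toFinset (fun w => a (Φ w))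
  refine ⟨g, ?_, ?_⟩
  · intro v hv hxv
    have hB := intRing_le_of_mem v hxv
    have hw : Φ (centreSpec v hB) = v := ofHeightOneSpectrum_centreSpec v hB
    have h1 := hg1 (centreSpec v hB) (by
      rw [Set.Finite.mem_toFinset, Set.mem_preimage, hw]
      exact hv)
    rw [mem_iff_valuation_centreSpec_le v hB]
    have h2 : a (Φ (centreSpec v hB)) = a v := congrArg a hw
    rw [← h2]
    exact h1
  · intro v hv hxv
    have hB := intRing_le_of_mem v hxv
    have hw : Φ (centreSpec v hB) = v := ofHeightOneSpectrum_centreSpec v hB
    have h1 := hg2 (centreSpec v hB) (by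
      rw [Set.Finite.mem_toFinset, Set.mem_preimage, hw]
      exact hv)
    rw [mem_iff_valuation_centreSpec_le v hB]
    exact h1

end Fermat.Agent.AV.F3_53.Charts
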