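/-
Programme AV (S26/S27), brick F3 (helper53): `genusFF = dim B01/(B0+B1)`, part 3: the algebraic
core.

`F / K` a function field over an algebraically closed field of characteristic zero with a
transcendental generator `x`.  With `B0 = regOn K (chartSet K x)` (the integral closure of `K[x]`),
`B1 = regOn K (chartSet K x⁻¹)` (the integral closure of `K[1/x]`) and
`B01 = regOn K (chartSet K x ∩ chartSet K x⁻¹)`:

  `B01 ⧸ (B0 + B1) ≃ₗ[K] H1 0`,   hence   `finrank K (B01 ⧸ (B0 + B1)) = genusFF K F`.

The map sends `f ∈ B01` to the class of the repartition equal to `f` at the poles of `x` and `0`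
elsewhere; surjectivity is strong approximation on the two charts.
-/
import Mathlib
import Fermat.Agent.AV.F3_53.Charts
import Fermat.Agent.X0.FFGenus
import Fermat.Agent.RR.Adeles
import Fermat.Agent.RR.Repart

set_option autoImplicit false

open AlgebraicCurve

namespace Fermat.Agent.AV.F3_53.Cech

open Fermat.Agent.X0.FF Fermat.Agent.AV.F3_53.Charts Fermat.Agent.RR.Repart

variable {K F : Type*} [Field K] [Field F] [Algebra K F]

/-! ### Repartitions: membership in `A(0) + F` -/

theorem mem_repartitionsOf_zero_iff {α : ↥(repartitions K F)} :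
    α ∈ repartitionsOf (0 : Divisor K F) ↔
      ∀ v : Place K F, (α : Place K F → F) v ∈ v.toValuationSubring := by
  rw [mem_repartitionsOf_iff]
  refine forall_congr' fun v => ?_
  rw [ffp_mem_iff_ord_nonneg]
  constructor
  · rintro (h | h)
    · rw [h, Place.ord_zero]
    · simpa using h
  · intro h
    right
    simpa using h

theorem mem_sup_iff {α : ↥(repartitions K F)} :
    α ∈ repartitionsOf (0 : Divisor K F) ⊔ principalRepartitions K F ↔
      ∃ g : F, ∀ v : Place K F, (α : Place K F → F) v - g ∈ v.toValuationSubring := by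
  constructor
  · intro h
    obtain ⟨a, ha, b, hb, rfl⟩ := Submodule.mem_sup.mp h
    obtain ⟨g, rfl⟩ := mem_principalRepartitions_iff_const.mp hb
    refine ⟨g, fun v => ?_⟩
    have h1 : ((a + const g : ↥(repartitions K F)) : Place K F → F) v - g
        = (a : Place K F → F) v := by
      show (a : Place K F → F) v + g - g = _
      ring
    rw [h1]
    exact mem_repartitionsOf_zero_iff.mp ha v
  · rintro ⟨g, hg⟩
    have h1 : α - const g ∈ repartitionsOf (0 : Divisor K F) :=
      mem_repartitionsOf_zero_iff.mpr fun v => hg v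
    have h2 : (const g : ↥(repartitions K F)) ∈ principalRepartitions K F :=
      mem_principalRepartitions_iff_const.mpr ⟨g, rfl⟩
    have h3 : α - const g + const g ∈
        repartitionsOf (0 : Divisor K F) ⊔ principalRepartitions K F :=
      Submodule.add_mem _ (Submodule.mem_sup_left h1) (Submodule.mem_sup_right h2)
    rwa [sub_add_cancel] at h3

/-! ### The repartition attached to a function: `f` at the poles of `x`, `0` elsewhere -/

open Classical in
/-- `f` at the places where `x` is not regular, `0` at the others. -/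
noncomputable def poleFun (K : Type*) {F : Type*} [Field K] [Field F] [Algebra K F] (x f : F) :
    Place K F → F := fun v => if x ∈ v.toValuationSubring then 0 else f

theorem poleFun_of_mem {x f : F} {v : Place K F} (h : x ∈ v.toValuationSubring) :
    poleFun K x f v = 0 := if_pos h

theorem poleFun_of_notMem {x f : F} {v : Place K F} (h : x ∉ v.toValuationSubring) :
    poleFun K x f v = f := if_neg h

theorem poleFun_add (x f g : F) : poleFun K x (f + g) = poleFun K x f + poleFun K x g := by
  funext v
  by_cases h : x ∈ v.toValuationSubring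
  · rw [Pi.add_apply, poleFun_of_mem h, poleFun_of_mem h, poleFun_of_mem h, add_zero]
  · rw [Pi.add_apply, poleFun_of_notMem h, poleFun_of_notMem h, poleFun_of_notMem h]

theorem poleFun_smul (x : F) (c : K) (f : F) : poleFun K x (c • f) = c • poleFun K x f := by
  funext v
  by_cases h : x ∈ v.toValuationSubring
  · rw [Pi.smul_apply, poleFun_of_mem h, poleFun_of_mem h, smul_zero]
  · rw [Pi.smul_apply, poleFun_of_notMem h, poleFun_of_notMem h]

/-- If `x` is not regular at `v` then `x⁻¹` is. -/
theorem inv_mem_of_notMem {x : F} {v : Place K F} (h : x ∉ v.toValuationSubring) :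
    x⁻¹ ∈ v.toValuationSubring :=
  (v.toValuationSubring.mem_or_inv_mem x).resolve_left h

section Main

variable [IsAlgClosed K] [CharZero K] {x : F}

theorem finite_compl_chartSet (hx : IsGen K x) : (chartSet K x)ᶜ.Finite := by
  refine (finite_poles hx).subset ?_
  intro v hv
  show v.ord x < 0
  by_contra hcon
  exact hv ((ffp_mem_iff_ord_nonneg v).mpr (not_lt.mp hcon))

theorem poleFun_mem (hx : IsGen K x) (f : F) : poleFun K x f ∈ repartitions K F := by
  apply mem_repartitions_of_finite_ord
  refine (finite_compl_chartSet hx).subset ?_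
  intro v hv hmem
  have h1 : v.ord (poleFun K x f v) < 0 := hv
  rw [poleFun_of_mem hmem, Place.ord_zero] at h1
  exact lt_irrefl _ h1

/-- The `K`-linear map `f ↦ (f at the poles of x, 0 elsewhere)`. -/
noncomputable def poleRep (hx : IsGen K x) : F →ₗ[K] ↥(repartitions K F) where
  toFun f := ⟨poleFun K x f, poleFun_mem hx f⟩
  map_add' f g := Subtype.ext (poleFun_add x f g)
  map_smul' c f := Subtype.ext (poleFun_smul x c f)

theorem poleRep_apply (hx : IsGen K x) (f : F) (v : Place K F) :
    ((poleRep hx f : ↥(repartitions K F)) : Place K F → F) v = poleFun K x f v := rfl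

/-- Every element of `F` has finitely many poles. -/
theorem finite_poles_all (hx : IsGen K x) (α : ↥(repartitions K F)) :
    {v : Place K F | v.ord ((α : Place K F → F) v) < 0}.Finite :=
  (Fermat.Agent.RR.Adeles.mem_repartitions_iff (Fermat.Agent.X0.FFGenus.ff1Data hx)).mp α.2

variable (K) (x)

/-- `B0 + B1` as a `K`-submodule of `F`. -/
def sumSub : Submodule K F :=
  Subalgebra.toSubmodule (regOn K (chartSet K x)) ⊔
    Subalgebra.toSubmodule (regOn K (chartSet K x⁻¹))

/-- `B01`: the functions regular on the overlap of the two charts. -/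
def overlap : Subalgebra K F := regOn K (chartSet K x ∩ chartSet K x⁻¹)

variable {K} {x}

omit [IsAlgClosed K] [CharZero K] in
theorem sumSub_le_overlap : sumSub K x ≤ Subalgebra.toSubmodule (overlap K x) := by
  refine sup_le ?_ ?_
  · exact regOn_anti Set.inter_subset_left
  · exact regOn_anti Set.inter_subset_right

/-- **Kernel.** For `f` regular on the overlap, the repartition of `f` is in `A(0) + F` iff
`f ∈ B0 + B1`. -/
theorem poleRep_mem_iff (hx : IsGen K x) {f : F} (hf : f ∈ overlap K x) :
    poleRep hx f ∈ repartitionsOf (0 : Divisor K F) ⊔ principalRepartitions K F ↔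
      f ∈ sumSub K x := by
  rw [mem_sup_iff]
  constructor
  · rintro ⟨g, hg⟩
    have hg0 : g ∈ regOn K (chartSet K x) := by
      intro v hv
      have h1 := hg v
      rw [poleRep_apply, poleFun_of_mem hv, zero_sub] at h1
      simpa using neg_mem h1
    have hg1 : f - g ∈ regOn K (chartSet K x⁻¹) := by
      intro v hv
      by_cases hxv : x ∈ v.toValuationSubring
      · exact sub_mem (hf v ⟨hxv, hv⟩) (hg0 v hxv)
      · have h1 := hg v
        rwa [poleRep_apply, poleFun_of_notMem hxv] at h1
    exact Submodule.mem_sup.mpr ⟨g, hg0, f - g, hg1, add_sub_cancel g f⟩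
  · intro h
    obtain ⟨g, hg, h', hh', rfl⟩ := Submodule.mem_sup.mp h
    refine ⟨g, fun v => ?_⟩
    by_cases hxv : x ∈ v.toValuationSubring
    · rw [poleRep_apply, poleFun_of_mem hxv, zero_sub]
      exact neg_mem (hg v hxv)
    · rw [poleRep_apply, poleFun_of_notMem hxv, add_sub_cancel_left]
      exact hh' v (inv_mem_of_notMem hxv)

/-- **Surjectivity.** Every repartition is, modulo `A(0) + F`, the repartition of a function
regular on the overlap. -/
theorem exists_poleRep_sub_mem (hx : IsGen K x) (α : ↥(repartitions K F)) :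
    ∃ f ∈ overlap K x,
      α - poleRep hx f ∈ repartitionsOf (0 : Divisor K F) ⊔ principalRepartitions K F := by
  -- Step 1: approximate `α` on the chart of `x`
  obtain ⟨g, hg1, hg2⟩ := exists_approx_chart hx _ (finite_poles_all hx α)
    (fun v => (α : Place K F → F) v)
  have hstep1 : ∀ v : Place K F, x ∈ v.toValuationSubring →
      (α : Place K F → F) v - g ∈ v.toValuationSubring := by
    intro v hxv
    by_cases hv : v ∈ {v : Place K F | v.ord ((α : Place K F → F) v) < 0}
    · have := neg_mem (hg1 v hv hxv)
      rwa [neg_sub] at this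
    · have h1 : (α : Place K F → F) v ∈ v.toValuationSubring :=
        (ffp_mem_iff_ord_nonneg v).mpr (not_lt.mp hv)
      exact sub_mem h1 (hg2 v hv hxv)
  -- Step 2: approximate `α - g` at the poles of `x`, on the chart of `x⁻¹`
  obtain ⟨f, hf1, hf2⟩ := exists_approx_chart hx.inv _ (finite_compl_chartSet hx)
    (fun v => (α : Place K F → F) v - g)
  refine ⟨f, ?_, ?_⟩
  · rintro v ⟨hxv, hxv'⟩
    exact hf2 v (fun h => h hxv) hxv'
  · rw [mem_sup_iff]
    refine ⟨g, fun v => ?_⟩
    have hcoe : ((α - poleRep hx f : ↥(repartitions K F)) : Place K F → F) v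
        = (α : Place K F → F) v - poleFun K x f v := rfl
    rw [hcoe]
    by_cases hxv : x ∈ v.toValuationSubring
    · rw [poleFun_of_mem hxv, sub_zero]
      exact hstep1 v hxv
    · rw [poleFun_of_notMem hxv]
      have h1 := neg_mem (hf1 v hxv (inv_mem_of_notMem hxv))
      have h2 : -(f - ((α : Place K F → F) v - g)) = (α : Place K F → F) v - f - g := by ring
      rwa [h2] at h1

/-- The Čech map `B01 → H¹(0)`. -/
noncomputable def cechMap (hx : IsGen K x) :
    ↥(Subalgebra.toSubmodule (overlap K x)) →ₗ[K] H1 (0 : Divisor K F) :=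
  (repartitionsOf (0 : Divisor K F) ⊔ principalRepartitions K F).mkQ ∘ₗ poleRep hx ∘ₗ
    (Subalgebra.toSubmodule (overlap K x)).subtype

theorem cechMap_surjective (hx : IsGen K x) : Function.Surjective (cechMap hx) := by
  intro z
  obtain ⟨α, rfl⟩ := Submodule.mkQ_surjective _ z
  obtain ⟨f, hf, h⟩ := exists_poleRep_sub_mem hx α
  refine ⟨⟨f, hf⟩, ?_⟩
  show (repartitionsOf (0 : Divisor K F) ⊔ principalRepartitions K F).mkQ (poleRep hx f) = _
  rw [Submodule.mkQ_apply, Submodule.mkQ_apply, eq_comm, Submodule.Quotient.eq]
  exact h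

theorem ker_cechMap (hx : IsGen K x) :
    LinearMap.ker (cechMap hx) =
      (sumSub K x).submoduleOf (Subalgebra.toSubmodule (overlap K x)) := by
  ext f
  rw [LinearMap.mem_ker]
  show (repartitionsOf (0 : Divisor K F) ⊔ principalRepartitions K F).mkQ (poleRep hx (f : F)) = 0
    ↔ (f : F) ∈ sumSub K x
  rw [Submodule.mkQ_apply, Submodule.Quotient.mk_eq_zero]
  exact poleRep_mem_iff hx f.2

/-- **The Čech computation of `H¹(0)`**: `B01 ⧸ (B0 + B1) ≃ H¹(0)`. -/
noncomputable def cechEquiv (hx : IsGen K x) :
    (↥(Subalgebra.toSubmodule (overlap K x)) ⧸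
      (sumSub K x).submoduleOf (Subalgebra.toSubmodule (overlap K x))) ≃ₗ[K]
        H1 (0 : Divisor K F) :=
  (Submodule.quotEquivOfEq _ _ (ker_cechMap hx).symm).trans
    ((cechMap hx).quotKerEquivOfSurjective (cechMap_surjective hx))

/-- **F3, algebraic core**: `dim_K B01 ⧸ (B0 + B1) = genusFF K F`. -/
theorem finrank_cech (hx : IsGen K x) :
    Module.finrank K (↥(Subalgebra.toSubmodule (overlap K x)) ⧸
      (sumSub K x).submoduleOf (Subalgebra.toSubmodule (overlap K x))) = genusFF K F :=
  (cechEquiv hx).finrank_eq

end Main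

end Fermat.Agent.AV.F3_53.Cech
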