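/-
Programme AV (S26/S27), brick F3 (helper53): `genusFF = dim B01/(B0+B1)`, part 4.

The overlap ring `B01 = regOn K (chartSet K x ∩ chartSet K x⁻¹)` is the localisation `B0[1/x]`:
`f` is regular on the overlap iff `x ^ n * f ∈ B0` for some `n`.
-/
import Mathlib
import Fermat.Agent.AV.F3_53.Cech

set_option autoImplicit false

open AlgebraicCurve

namespace Fermat.Agent.AV.F3_53.Overlap

open Fermat.Agent.X0.FF Fermat.Agent.AV.F3_53.Charts Fermat.Agent.AV.F3_53.Cech

variable {K F : Type*} [Field K] [Field F] [Algebra K F]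

/-- `x ^ n * f` regular on the chart of `x` implies `f` regular on the overlap. -/
theorem mem_overlap_of_pow_mul_mem {x f : F} (hx0 : x ≠ 0) {n : ℕ}
    (h : x ^ n * f ∈ regOn K (chartSet K x)) : f ∈ overlap K x := by
  rintro v ⟨hv0, hv1⟩
  have h1 : f = (x⁻¹) ^ n * (x ^ n * f) := by
    rw [← mul_assoc, ← mul_pow, inv_mul_cancel₀ hx0, one_pow, one_mul]
  rw [h1]
  exact mul_mem (pow_mem hv1 n) (h v hv0)

variable [IsAlgClosed K] [CharZero K] {x : F}

/-- A function regular on the overlap becomes regular on the chart of `x` after multiplication by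
a power of `x`. -/
theorem exists_pow_mul_mem (hx : IsGen K x) {f : F} (hf : f ∈ overlap K x) :
    ∃ n : ℕ, x ^ n * f ∈ regOn K (chartSet K x) := by
  classical
  rcases eq_or_ne f 0 with rfl | hf0
  · exact ⟨0, by rw [mul_zero]; exact zero_mem _⟩
  have hx0 : x ≠ 0 := hx.ne_zero
  have hfin : {v : Place K F | v.ord f < 0}.Finite :=
    (ffq_finite_support_ord (Fermat.Agent.X0.FFGenus.ff1Data hx) hf0).subset
      fun v hv => ne_of_lt hv
  refine ⟨∑ v ∈ hfin.toFinset, (-(v.ord f)).toNat, ?_⟩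
  set n := ∑ v ∈ hfin.toFinset, (-(v.ord f)).toNat with hn
  intro v hv
  by_cases hpole : v.ord f < 0
  · -- `x⁻¹` is not regular at `v`, so `x` has a zero there
    have hx1 : x⁻¹ ∉ v.toValuationSubring := fun h1 =>
      absurd ((ffp_mem_iff_ord_nonneg v).mp (hf v ⟨hv, h1⟩)) (not_le.mpr hpole)
    have hordx : 1 ≤ v.ord x := by
      have h2 : ¬ (0 ≤ v.ord x⁻¹) := fun h3 => hx1 ((ffp_mem_iff_ord_nonneg v).mpr h3)
      rw [v.ord_inv] at h2
      omega
    have hle : (-(v.ord f)).toNat ≤ n := by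
      rw [hn]
      exact Finset.single_le_sum (f := fun w : Place K F => (-(w.ord f)).toNat)
        (fun _ _ => Nat.zero_le _) (hfin.mem_toFinset.mpr hpole)
    apply ffp_mem_of_ord_nonneg
    rw [v.ord_mul (pow_ne_zero _ hx0) hf0, ← zpow_natCast, v.ord_zpow]
    have h4 : (-(v.ord f)) ≤ ((-(v.ord f)).toNat : ℤ) := Int.self_le_toNat _
    have h5 : ((-(v.ord f)).toNat : ℤ) ≤ (n : ℤ) := by exact_mod_cast hle
    have h6 : (n : ℤ) * 1 ≤ (n : ℤ) * v.ord x :=
      mul_le_mul_of_nonneg_left hordx (Int.natCast_nonneg n)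
    omega
  · exact mul_mem (pow_mem hv n) ((ffp_mem_iff_ord_nonneg v).mpr (not_lt.mp hpole))

/-- The overlap ring is `B0[1/x]`. -/
theorem mem_overlap_iff (hx : IsGen K x) (f : F) :
    f ∈ overlap K x ↔ ∃ n : ℕ, x ^ n * f ∈ regOn K (chartSet K x) :=
  ⟨exists_pow_mul_mem hx, fun ⟨_, h⟩ => mem_overlap_of_pow_mul_mem hx.ne_zero h⟩

end Fermat.Agent.AV.F3_53.Overlap
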