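/-
Programme AV (S26/S27), brick F3 (helper53): `genusFF = dim B01/(B0+B1)`, part 5: the tensor
bridge.

For a two-chart ring `(R0, R1, R01)` over a field `k` whose rings are identified with subalgebras
`B0, B1 ≤ B01` of a `k`-algebra `F`, the `H¹` of the structure sheaf computed on the tensor rings
`k ⊗[k] R_i` (as in `Jac.Genus41.genus`) is `B01 ⧸ (B0 + B1)`.
-/
import Mathlib
import Fermat.Agent.Jac.Core
import Fermat.Agent.Jac.BaseChange75.Rings

set_option autoImplicit false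

open TensorProduct

namespace Fermat.Agent.AV.F3_53.Tensor

open Fermat.Agent.Jac
open scoped Fermat.Agent.Jac.BaseChange75

universe u

variable {k : Type u} [Field k] {R0 R1 R01 : Type u} [CommRing R0] [CommRing R1] [CommRing R01]
  [Algebra k R0] [Algebra k R1] [Algebra k R01] [Algebra R0 R01] [Algebra R1 R01]
  [IsScalarTower k R0 R01] [IsScalarTower k R1 R01]
  {F : Type u} [Field F] [Algebra k F]

/-- The structure sheaf on the tensor rings. -/
abbrev unitK (k R0 R1 R01 : Type u) [Field k] [CommRing R0] [CommRing R1] [CommRing R01]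
    [Algebra k R0] [Algebra k R1] [Algebra k R01] [Algebra R0 R01] [Algebra R1 R01]
    [IsScalarTower k R0 R01] [IsScalarTower k R1 R01] :
    QC2 k (k ⊗[k] R0) (k ⊗[k] R1) (k ⊗[k] R01) := QC2.unit

theorem qc2_d_apply {A S0 S1 S01 : Type u} [CommRing A] [CommRing S0] [CommRing S1] [CommRing S01]
    [Algebra A S0] [Algebra A S1] [Algebra A S01] [Algebra S0 S01] [Algebra S1 S01]
    [IsScalarTower A S0 S01] [IsScalarTower A S1 S01] (L : QC2 A S0 S1 S01) (y0 : L.N0) (y1 : L.N1) :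
    L.d (y0, y1) = L.r0 y0 - L.r1 y1 := by
  simp [QC2.d, sub_eq_add_neg]

theorem unitK_d_apply (x0 : k ⊗[k] R0) (x1 : k ⊗[k] R1) :
    (unitK k R0 R1 R01).d (x0, x1) =
      algebraMap (k ⊗[k] R0) (k ⊗[k] R01) x0 - algebraMap (k ⊗[k] R1) (k ⊗[k] R01) x1 :=
  qc2_d_apply (unitK k R0 R1 R01) x0 x1

/-- The image of the Čech differential of the structure sheaf, as a submodule of `k ⊗[k] R01`. -/
def rangeD (k R0 R1 R01 : Type u) [Field k] [CommRing R0] [CommRing R1] [CommRing R01]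
    [Algebra k R0] [Algebra k R1] [Algebra k R01] [Algebra R0 R01] [Algebra R1 R01]
    [IsScalarTower k R0 R01] [IsScalarTower k R1 R01] : Submodule k (k ⊗[k] R01) :=
  LinearMap.range (unitK k R0 R1 R01).d

theorem mem_rangeD_iff (z : k ⊗[k] R01) :
    z ∈ rangeD k R0 R1 R01 ↔
      ∃ (x0 : k ⊗[k] R0) (x1 : k ⊗[k] R1),
        algebraMap (k ⊗[k] R0) (k ⊗[k] R01) x0 - algebraMap (k ⊗[k] R1) (k ⊗[k] R01) x1 = z := by
  constructor
  · rintro ⟨x, rfl⟩
    exact ⟨x.1, x.2, (unitK_d_apply x.1 x.2).symm⟩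
  · rintro ⟨x0, x1, rfl⟩
    exact ⟨(x0, x1), unitK_d_apply x0 x1⟩

variable (B0 B1 B01 : Subalgebra k F) (le0 : B0 ≤ B01) (le1 : B1 ≤ B01)
  (e0 : B0 ≃ₐ[k] R0) (e1 : B1 ≃ₐ[k] R1) (e01 : B01 ≃ₐ[k] R01)

/-- `B0 + B1` inside `B01`. -/
def sumIn : Submodule k ↥(Subalgebra.toSubmodule B01) :=
  (Subalgebra.toSubmodule B0 ⊔ Subalgebra.toSubmodule B1).submoduleOf (Subalgebra.toSubmodule B01)

/-- The identification `k ⊗[k] R01 ≃ B01`. -/
noncomputable def tensorEquiv : (k ⊗[k] R01) ≃ₗ[k] ↥(Subalgebra.toSubmodule B01) :=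
  (TensorProduct.lid k R01).trans
    (e01.symm.toLinearEquiv.trans (Subalgebra.toSubmoduleEquiv B01).symm)

theorem tensorEquiv_tmul (a : k) (r : R01) :
    ((tensorEquiv B01 e01 (a ⊗ₜ[k] r) : ↥(Subalgebra.toSubmodule B01)) : F) =
      a • ((e01.symm r : B01) : F) := by
  show (((e01.symm (a • r)) : B01) : F) = _
  rw [map_smul]
  rfl

variable (h0 : ∀ b : B0, e01 (Subalgebra.inclusion le0 b) = algebraMap R0 R01 (e0 b))
  (h1 : ∀ b : B1, e01 (Subalgebra.inclusion le1 b) = algebraMap R1 R01 (e1 b))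

omit [IsScalarTower k R0 R01] in
include h0 in
theorem symm_algebraMap0 (r : R0) :
    ((e01.symm (algebraMap R0 R01 r) : B01) : F) = ((e0.symm r : B0) : F) := by
  have h := h0 (e0.symm r)
  rw [AlgEquiv.apply_symm_apply] at h
  rw [← h, AlgEquiv.symm_apply_apply]
  rfl

omit [IsScalarTower k R1 R01] in
include h1 in
theorem symm_algebraMap1 (r : R1) :
    ((e01.symm (algebraMap R1 R01 r) : B01) : F) = ((e1.symm r : B1) : F) := by
  have h := h1 (e1.symm r)
  rw [AlgEquiv.apply_symm_apply] at h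
  rw [← h, AlgEquiv.symm_apply_apply]
  rfl

include h0 in
theorem tensorEquiv_algebraMap0_mem (x0 : k ⊗[k] R0) :
    ((tensorEquiv B01 e01 (algebraMap (k ⊗[k] R0) (k ⊗[k] R01) x0) :
      ↥(Subalgebra.toSubmodule B01)) : F) ∈ B0 := by
  induction x0 using TensorProduct.induction_on with
  | zero =>
    rw [map_zero, map_zero]
    exact zero_mem B0
  | tmul a r =>
    rw [BaseChange75.algebraMap_right_tmul, tensorEquiv_tmul, symm_algebraMap0 B0 B01 le0 e0 e01 h0]
    exact B0.smul_mem (e0.symm r).2 a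
  | add x y hx hy =>
    rw [map_add, map_add]
    exact add_mem hx hy

include h1 in
theorem tensorEquiv_algebraMap1_mem (x1 : k ⊗[k] R1) :
    ((tensorEquiv B01 e01 (algebraMap (k ⊗[k] R1) (k ⊗[k] R01) x1) :
      ↥(Subalgebra.toSubmodule B01)) : F) ∈ B1 := by
  induction x1 using TensorProduct.induction_on with
  | zero =>
    rw [map_zero, map_zero]
    exact zero_mem B1
  | tmul a r =>
    rw [BaseChange75.algebraMap_right_tmul, tensorEquiv_tmul, symm_algebraMap1 B1 B01 le1 e1 e01 h1]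
    exact B1.smul_mem (e1.symm r).2 a
  | add x y hx hy =>
    rw [map_add, map_add]
    exact add_mem hx hy

include h0 h1 in
/-- The image of the Čech differential is `B0 + B1`. -/
theorem map_range_d :
    (rangeD k R0 R1 R01).map (tensorEquiv B01 e01).toLinearMap = sumIn B0 B1 B01 := by
  ext y
  rw [Submodule.mem_map]
  constructor
  · rintro ⟨z, hz, rfl⟩
    obtain ⟨x0, x1, rfl⟩ := (mem_rangeD_iff z).mp hz
    show ((tensorEquiv B01 e01 (algebraMap (k ⊗[k] R0) (k ⊗[k] R01) x0 -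
      algebraMap (k ⊗[k] R1) (k ⊗[k] R01) x1) : ↥(Subalgebra.toSubmodule B01)) : F) ∈
        Subalgebra.toSubmodule B0 ⊔ Subalgebra.toSubmodule B1
    rw [map_sub]
    refine Submodule.sub_mem _ (Submodule.mem_sup_left ?_) (Submodule.mem_sup_right ?_)
    · exact tensorEquiv_algebraMap0_mem B0 B01 le0 e0 e01 h0 x0
    · exact tensorEquiv_algebraMap1_mem B1 B01 le1 e1 e01 h1 x1
  · intro hy
    have hy' : (y : F) ∈ Subalgebra.toSubmodule B0 ⊔ Subalgebra.toSubmodule B1 := hy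
    obtain ⟨g, hg, h, hh, hgh⟩ := Submodule.mem_sup.mp hy'
    refine ⟨algebraMap (k ⊗[k] R0) (k ⊗[k] R01) ((1 : k) ⊗ₜ[k] e0 ⟨g, hg⟩) -
      algebraMap (k ⊗[k] R1) (k ⊗[k] R01) ((1 : k) ⊗ₜ[k] e1 ⟨-h, neg_mem hh⟩),
      (mem_rangeD_iff _).mpr ⟨_, _, rfl⟩, ?_⟩
    apply Subtype.ext
    rw [BaseChange75.algebraMap_right_tmul, BaseChange75.algebraMap_right_tmul]
    show ((tensorEquiv B01 e01 (_ - _) : ↥(Subalgebra.toSubmodule B01)) : F) = y
    rw [map_sub]
    show ((tensorEquiv B01 e01 _ : ↥(Subalgebra.toSubmodule B01)) : F) -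
      ((tensorEquiv B01 e01 _ : ↥(Subalgebra.toSubmodule B01)) : F) = y
    rw [tensorEquiv_tmul, tensorEquiv_tmul, symm_algebraMap0 B0 B01 le0 e0 e01 h0,
      symm_algebraMap1 B1 B01 le1 e1 e01 h1, AlgEquiv.symm_apply_apply,
      AlgEquiv.symm_apply_apply, one_smul, one_smul, ← hgh]
    show g - -h = g + h
    ring

include h0 h1 in
/-- **The tensor bridge.** -/
noncomputable def h1Equiv :
    (unitK k R0 R1 R01).H1 ≃ₗ[k] (↥(Subalgebra.toSubmodule B01) ⧸ sumIn B0 B1 B01) :=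
  Submodule.Quotient.equiv (rangeD k R0 R1 R01) (sumIn B0 B1 B01) (tensorEquiv B01 e01)
    (map_range_d B0 B1 B01 le0 le1 e0 e1 e01 h0 h1)

include h0 h1 in
theorem finrank_h1 :
    Module.finrank k (unitK k R0 R1 R01).H1 =
      Module.finrank k (↥(Subalgebra.toSubmodule B01) ⧸ sumIn B0 B1 B01) :=
  (h1Equiv B0 B1 B01 le0 le1 e0 e1 e01 h0 h1).finrank_eq

end Fermat.Agent.AV.F3_53.Tensor
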