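/-
Programme AV (S26/S27), brick F3 (helper53): **`Genus41.genus M.cc = genusFF K F`**.

For a model curve `M : F1Model15.Model K F` of a function field `F / K` (`K` algebraically closed of
characteristic zero) whose coordinate `t` is a transcendental generator (`IsGen K M.alg.t`, i.e.
`F` is finite over `K(t)`), the genus of helper41 (`dim_K H¹(O)` computed by the two-chart Čech
complex on the tensor rings) is the genus `genusFF K F` of the function field
(`dim_K A ⧸ (A(0) + F)`).

* `B0_eq`, `B1_eq`, `B01_eq` : the chart rings of a `ChartAlg` are the rings of functions regular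
  on `{ord t ≥ 0}`, `{ord t ≤ 0}`, `{ord t = 0}`;
* `finrank_chartAlg` : `dim_K B01 ⧸ (B0 + B1) = genusFF K F` for a `ChartAlg`;
* `genus_eq_genusFF` : the statement for a `Model`.
-/
import Mathlib
import Fermat.Agent.AV.F1Model15.Interface
import Fermat.Agent.Jac.Genus41
import Fermat.Agent.AV.F3_53.Overlap
import Fermat.Agent.AV.F3_53.Tensor

set_option autoImplicit false

open AlgebraicCurve TensorProduct

namespace Fermat.Agent.AV.F3_53.Genus

open Fermat.Agent.X0.FF Fermat.Agent.AV.F1Model15 Fermat.Agent.AV.F3_53.Charts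
  Fermat.Agent.AV.F3_53.Cech Fermat.Agent.AV.F3_53.Overlap Fermat.Agent.Jac

universe u

variable {K F : Type u} [Field K] [Field F] [Algebra K F] [IsAlgClosed K] [CharZero K]

omit [IsAlgClosed K] in
theorem B0_eq (alg : ChartAlg K F) (hgen : IsGen K alg.t) :
    alg.B0 = regOn K (chartSet K alg.t) := by
  ext f
  rw [alg.mem0_iff, mem_regOn_chartSet_iff hgen]

omit [IsAlgClosed K] in
theorem B1_eq (alg : ChartAlg K F) (hgen : IsGen K alg.t) :
    alg.B1 = regOn K (chartSet K alg.t⁻¹) := by
  ext f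
  rw [alg.mem1_iff, mem_regOn_chartSet_iff hgen.inv]

theorem B01_eq (alg : ChartAlg K F) (hgen : IsGen K alg.t) :
    alg.B01 = overlap K alg.t := by
  ext f
  rw [mem_overlap_iff hgen, ← B0_eq alg hgen]
  have ht0 : alg.t ≠ 0 := hgen.ne_zero
  constructor
  · intro hf
    let _ : Algebra alg.B0 alg.B01 := (Subalgebra.inclusion alg.le0).toRingHom.toAlgebra
    have : IsLocalization.Away (⟨alg.t, alg.t_mem⟩ : alg.B0) alg.B01 := alg.away0
    obtain ⟨n, b, hb⟩ := IsLocalization.Away.surj (⟨alg.t, alg.t_mem⟩ : alg.B0)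
      (⟨f, hf⟩ : alg.B01)
    refine ⟨n, ?_⟩
    have h1 : f * alg.t ^ n = (b : F) := congrArg (Subtype.val : alg.B01 → F) hb
    rw [mul_comm, h1]
    exact b.2
  · rintro ⟨n, hn⟩
    have h1 : f = (alg.t⁻¹) ^ n * (alg.t ^ n * f) := by
      rw [← mul_assoc, ← mul_pow, inv_mul_cancel₀ ht0, one_pow, one_mul]
    rw [h1]
    exact mul_mem (pow_mem (alg.le1 alg.s_mem) n) (alg.le0 hn)

/-- Transport of `Cech.finrank_cech` along equalities of subalgebras. -/
theorem finrank_sumIn_eq {x : F} (hx : IsGen K x) (A0 A1 A01 : Subalgebra K F)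
    (h0 : A0 = regOn K (chartSet K x)) (h1 : A1 = regOn K (chartSet K x⁻¹))
    (h01 : A01 = overlap K x) :
    Module.finrank K (↥(Subalgebra.toSubmodule A01) ⧸ Tensor.sumIn A0 A1 A01) = genusFF K F := by
  subst h0 h1 h01
  exact finrank_cech hx

/-- **F3 for a chart algebra**: `dim_K B01 ⧸ (B0 + B1) = genusFF K F`. -/
theorem finrank_chartAlg (alg : ChartAlg K F) (hgen : IsGen K alg.t) :
    Module.finrank K (↥(Subalgebra.toSubmodule alg.B01) ⧸ Tensor.sumIn alg.B0 alg.B1 alg.B01) =
      genusFF K F :=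
  finrank_sumIn_eq hgen _ _ _ (B0_eq alg hgen) (B1_eq alg hgen) (B01_eq alg hgen)

/-- **F3**: the genus of the model curve is the genus of the function field. -/
theorem genus_eq_genusFF (M : Model K F) (hgen : IsGen K M.alg.t) :
    Genus41.genus M.cc = genusFF K F := by
  have h1 := Tensor.finrank_h1 M.alg.B0 M.alg.B1 M.alg.B01 M.alg.le0 M.alg.le1 M.e0 M.e1 M.e01
    M.e01_res0 M.e01_res1
  rw [finrank_chartAlg M.alg hgen] at h1
  exact h1

/-- Variant: any transcendental generator of `F` will do. -/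
theorem genus_eq_genusFF' (M : Model K F) {x : F} (hx : IsGen K x) :
    Genus41.genus M.cc = genusFF K F :=
  genus_eq_genusFF M (hx.of_transcendental M.alg.transc)

end Fermat.Agent.AV.F3_53.Genus
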