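/-
Programme AV (S26/S27), brick F3 (helper53): the statement in the exact shape consumed by the S27
assembly (helper6, brick F5):

  `∀ K F [IsAlgClosed K] [CharZero K] [IsCurveOver K F] [Algebra.EssFiniteType K F]
     (M : F1Model15.Model K F), Genus41.genus M.cc = genusFF K F`.

The transcendental generator needed by `Genus.genus_eq_genusFF'` comes from helper21's
`F1Places21.Gen.exists_isGen`.
-/
import Mathlib
import Fermat.Agent.AV.F3_53.Genus
import Fermat.Agent.AV.F1Places21.Gen

set_option autoImplicit false

open AlgebraicCurve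

namespace Fermat.Agent.AV.F3_53.Final

universe u

/-- **Brick F3**, as a proposition. -/
def F3Statement : Prop :=
  ∀ (K F : Type u) [Field K] [Field F] [Algebra K F] [IsAlgClosed K] [CharZero K]
    [IsCurveOver K F] [Algebra.EssFiniteType K F] (M : Fermat.Agent.AV.F1Model15.Model K F),
    Fermat.Agent.Jac.Genus41.genus M.cc = genusFF K F

/-- **Brick F3.** -/
theorem genus_eq_genusFF (K F : Type u) [Field K] [Field F] [Algebra K F] [IsAlgClosed K]
    [CharZero K] [IsCurveOver K F] [Algebra.EssFiniteType K F]
    (M : Fermat.Agent.AV.F1Model15.Model K F) :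
    Fermat.Agent.Jac.Genus41.genus M.cc = genusFF K F := by
  obtain ⟨x, hx⟩ := Fermat.Agent.AV.F1Places21.Gen.exists_isGen K F
  exact Fermat.Agent.AV.F3_53.Genus.genus_eq_genusFF' M hx

theorem f3Statement : F3Statement.{u} := fun K F => genus_eq_genusFF K F

end Fermat.Agent.AV.F3_53.Final
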